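/-
Row 38 wiring (helper68): the frozen statement S40 (good reduction at `p`) is the special case
`v_p(Δ) = 0` of the frozen statement S39 (peu ramifiée at `p`).  `s40_of_s39` takes the S39
statement as a hypothesis and proves the S40 statement.  Also: the sets of test primes in the
hypothesis (level `M`) and in the conclusion (level `M / p`) of S38/S39/S40 coincide when `p ∣ M`.
Sorry-free; earns nothing by itself (row 38 is an `any` row).
-/
import Fermat.Statements.S39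
import Fermat.Statements.S40

set_option autoImplicit false
set_option linter.unusedVariables false
open WeierstrassCurve

namespace Fermat.Agent.S40W

/-- Good reduction at `p` implies `IsPeuRamifieeAt p p` (the valuation of `Δ` is `0`). -/
theorem isPeuRamifieeAt_of_isGoodPrimeFor (W : WeierstrassCurve ℤ) {p : ℕ} (hp : p.Prime)
    (hgood : W.IsGoodPrimeFor p) : (W.map (Int.castRingHom ℚ)).IsPeuRamifieeAt p p := by
  unfold WeierstrassCurve.IsPeuRamifieeAt
  have : Fact p.Prime := ⟨hp⟩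
  have h1 : (W.map (Int.castRingHom ℚ)).Δ = ((W.Δ : ℤ) : ℚ) := by
    rw [WeierstrassCurve.map_Δ]; rfl
  rw [h1, padicValRat.of_int]
  have : padicValInt p W.Δ = 0 := padicValInt.eq_zero_of_not_dvd hgood
  rw [this]; simp

/-- The statement of S39, as a proposition. -/
def Stmt39 : Prop :=
  ∀ (W : WeierstrassCurve ℤ) (hΔ : W.Δ ≠ 0)
    {p : ℕ} (hp : p.Prime) (hp2 : p ≠ 2)
    (hsemi : (p : ℤ) ∣ W.Δ → ¬ (p : ℤ) ∣ W.c₄)
    (hirr : W.ModRepIsIrreducible p)
    (hfin : (W.map (Int.castRingHom ℚ)).IsPeuRamifieeAt p p)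
    {M : ℕ} (hM : 0 < M) (hpM : p ∣ M) (hp2M : ¬ p ^ 2 ∣ M)
    (hmod : W.IsResiduallyModularOfLevel p M),
    W.IsResiduallyModularOfLevel p (M / p)

/-- S39 implies S40. -/
theorem s40_of_s39 (h39 : Stmt39)
    (W : WeierstrassCurve ℤ) (hΔ : W.Δ ≠ 0)
    {p : ℕ} (hp : p.Prime) (hp2 : p ≠ 2)
    (hgood : W.IsGoodPrimeFor p)
    (hirr : W.ModRepIsIrreducible p)
    {M : ℕ} (hM : 0 < M) (hpM : p ∣ M) (hp2M : ¬ p ^ 2 ∣ M)
    (hmod : W.IsResiduallyModularOfLevel p M) :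
    W.IsResiduallyModularOfLevel p (M / p) :=
  h39 W hΔ hp hp2 (fun h => absurd h hgood) hirr
    (isPeuRamifieeAt_of_isGoodPrimeFor W hp hgood) hM hpM hp2M hmod

/-- For `p ∣ M`, a prime `ℓ` is a test prime at level `M / p` iff it is one at level `M`. -/
theorem testPrime_div_iff {p M ℓ : ℕ} (hp : p.Prime) (hpM : p ∣ M) (hℓ : ℓ.Prime) :
    (¬ ℓ ∣ M / p ∧ ℓ ≠ p) ↔ (¬ ℓ ∣ M ∧ ℓ ≠ p) := by
  obtain ⟨k, rfl⟩ := hpM
  rw [Nat.mul_div_cancel_left k hp.pos]
  constructor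
  · rintro ⟨h1, h2⟩
    refine ⟨fun h => ?_, h2⟩
    rcases (Nat.Prime.dvd_mul hℓ).mp h with h | h
    · exact h2 ((Nat.prime_dvd_prime_iff_eq hℓ hp).mp h)
    · exact h1 h
  · rintro ⟨h1, h2⟩
    exact ⟨fun h => h1 (dvd_mul_of_dvd_right h _), h2⟩

end Fermat.Agent.S40W
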